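import Mathlib

section MergeWrap_S20_Cosets_Lift -- from S20/Cosets/Lift.lean

set_option autoImplicit false

namespace Fermat.Agent.S20

open scoped MatrixGroups

/-- If `gcd(a, c, N) = 1` and `c ≠ 0`, some `a + t N` is coprime to `c`. -/
theorem exists_add_mul_coprime (a c N : ℕ) (hc : c ≠ 0)
    (h : Nat.gcd a (Nat.gcd c N) = 1) : ∃ t : ℕ, Nat.Coprime (a + t * N) c := by
  classical
  refine ⟨∏ p ∈ c.primeFactors.filter (fun p => ¬ p ∣ a), p, ?_⟩
  set t := ∏ p ∈ c.primeFactors.filter (fun p => ¬ p ∣ a), p with ht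
  apply Nat.Coprime.symm
  rw [Nat.coprime_iff_gcd_eq_one]
  by_contra hne
  obtain ⟨p, hp, hpd⟩ := Nat.exists_prime_and_dvd hne
  have hpc : p ∣ c := hpd.trans (Nat.gcd_dvd_left _ _)
  have hpa' : p ∣ a + t * N := hpd.trans (Nat.gcd_dvd_right _ _)
  by_cases hpa : p ∣ a
  · -- then `p ∤ N` and `p ∤ t`
    have hpN : ¬ p ∣ N := fun hpN => by
      have : p ∣ Nat.gcd a (Nat.gcd c N) := Nat.dvd_gcd hpa (Nat.dvd_gcd hpc hpN)
      rw [h] at this
      exact hp.one_lt.ne' (Nat.dvd_one.mp this)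
    have hpt : ¬ p ∣ t := by
      rw [ht, Prime.dvd_finsetProd_iff (Nat.Prime.prime hp)]
      rintro ⟨q, hq, hpq⟩
      rw [Finset.mem_filter, Nat.mem_primeFactors] at hq
      have : p = q := (Nat.prime_dvd_prime_iff_eq hp hq.1.1).mp hpq
      exact hq.2 (this ▸ hpa)
    have : p ∣ t * N := (Nat.dvd_add_right hpa).mp hpa'
    rcases (Nat.Prime.dvd_mul hp).mp this with h1 | h1
    · exact hpt h1
    · exact hpN h1
  · have hpt : p ∣ t := by
      rw [ht]
      exact Finset.dvd_prod_of_mem _ (by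
        rw [Finset.mem_filter, Nat.mem_primeFactors]
        exact ⟨⟨hp, hpc, hc⟩, hpa⟩)
    have : p ∣ a := (Nat.dvd_add_left (hpt.mul_right N)).mp hpa'
    exact hpa this

/-- Every unimodular pair mod `N` lifts to a coprime pair of integers. -/
theorem exists_isCoprime_lift {N : ℕ} [NeZero N] {a c : ZMod N} (h : IsCoprime a c) :
    ∃ a' c' : ℤ, IsCoprime a' c' ∧ (a' : ZMod N) = a ∧ (c' : ZMod N) = c := by
  -- choose a nonzero natural lift of `c`
  obtain ⟨c₀, hc₀, hcc⟩ : ∃ c₀ : ℕ, c₀ ≠ 0 ∧ (c₀ : ZMod N) = c := by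
    by_cases hc : c.val = 0
    · refine ⟨N, NeZero.ne N, ?_⟩
      rw [ZMod.natCast_self]
      exact ((ZMod.val_eq_zero c).mp hc).symm
    · exact ⟨c.val, hc, ZMod.natCast_zmod_val c⟩
  have hgcd : Nat.gcd a.val (Nat.gcd c₀ N) = 1 := by
    obtain ⟨x, y, hxy⟩ := h
    by_contra hne
    obtain ⟨p, hp, hpd⟩ := Nat.exists_prime_and_dvd hne
    have hpa : p ∣ a.val := hpd.trans (Nat.gcd_dvd_left _ _)
    have hpc : p ∣ c₀ := hpd.trans ((Nat.gcd_dvd_right _ _).trans (Nat.gcd_dvd_left _ _))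
    have hpN : p ∣ N := hpd.trans ((Nat.gcd_dvd_right _ _).trans (Nat.gcd_dvd_right _ _))
    -- reduce mod p
    have h1 : (ZMod.castHom hpN (ZMod p)) (x * a + y * c) = 1 := by rw [hxy, map_one]
    have ha0 : (ZMod.castHom hpN (ZMod p)) a = 0 := by
      rw [← ZMod.natCast_zmod_val a, map_natCast]
      exact (ZMod.natCast_eq_zero_iff _ _).mpr hpa
    have hc0 : (ZMod.castHom hpN (ZMod p)) c = 0 := by
      rw [← hcc, map_natCast]
      exact (ZMod.natCast_eq_zero_iff _ _).mpr hpc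
    rw [map_add, map_mul, map_mul, ha0, hc0, mul_zero, mul_zero, add_zero] at h1
    have : Fact p.Prime := ⟨hp⟩
    exact zero_ne_one h1
  obtain ⟨t, ht⟩ := exists_add_mul_coprime a.val c₀ N hc₀ hgcd
  refine ⟨((a.val + t * N : ℕ) : ℤ), (c₀ : ℤ), ?_, ?_, ?_⟩
  · exact Nat.isCoprime_iff_coprime.mpr ht
  · push_cast
    simp
  · push_cast
    exact hcc

/-- Every unimodular pair mod `N` is the first column of an element of `SL(2,ℤ)`. -/
theorem exists_SL2_col_mod {N : ℕ} [NeZero N] {a c : ZMod N} (h : IsCoprime a c) :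
    ∃ g : SL(2, ℤ), ((g 0 0 : ℤ) : ZMod N) = a ∧ ((g 1 0 : ℤ) : ZMod N) = c := by
  obtain ⟨a', c', hcop, ha, hc⟩ := exists_isCoprime_lift h
  obtain ⟨g, hg0, hg1⟩ := hcop.exists_SL2_col 0
  exact ⟨g, by rw [hg0, ha], by rw [hg1, hc]⟩

end Fermat.Agent.S20
end MergeWrap_S20_Cosets_Lift

section MergeWrap_S20_Cosets_P1 -- from S20/Cosets/P1.lean

set_option autoImplicit false

namespace Fermat.Agent.S20

open scoped MatrixGroups
open CongruenceSubgroup Matrix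

/-- Unimodular pairs in `(ℤ/N)²`. -/
def Unimod (N : ℕ) : Type := {v : ZMod N × ZMod N // IsCoprime v.1 v.2}

namespace Unimod

variable {N : ℕ}

@[ext] theorem ext {v w : Unimod N} (h1 : v.1.1 = w.1.1) (h2 : v.1.2 = w.1.2) : v = w :=
  Subtype.ext (Prod.ext h1 h2)

instance : SMul (ZMod N)ˣ (Unimod N) where
  smul u v := ⟨((u : ZMod N) * v.1.1, (u : ZMod N) * v.1.2),
    (isCoprime_mul_unit_left u.isUnit _ _).mpr v.2⟩

@[simp] theorem smul_fst (u : (ZMod N)ˣ) (v : Unimod N) : (u • v).1.1 = (u : ZMod N) * v.1.1 := rfl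
@[simp] theorem smul_snd (u : (ZMod N)ˣ) (v : Unimod N) : (u • v).1.2 = (u : ZMod N) * v.1.2 := rfl

instance : MulAction (ZMod N)ˣ (Unimod N) where
  one_smul v := by ext <;> simp
  mul_smul u u' v := by ext <;> simp [mul_assoc]

/-- The cross-product criterion for two unimodular pairs to be proportional. -/
theorem exists_smul_eq_iff (v w : Unimod N) :
    (∃ u : (ZMod N)ˣ, u • v = w) ↔ v.1.1 * w.1.2 = v.1.2 * w.1.1 := by
  constructor
  · rintro ⟨u, rfl⟩
    simp only [smul_fst, smul_snd]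
    ring
  · intro h
    obtain ⟨x, y, hxy⟩ := v.2
    obtain ⟨x', y', hxy'⟩ := w.2
    have h1 : (x * w.1.1 + y * w.1.2) * v.1.1 = w.1.1 := by
      linear_combination w.1.1 * hxy + y * h
    have h2 : (x * w.1.1 + y * w.1.2) * v.1.2 = w.1.2 := by
      linear_combination w.1.2 * hxy - x * h
    have hu : (x * w.1.1 + y * w.1.2) * (x' * v.1.1 + y' * v.1.2) = 1 := by
      linear_combination x' * h1 + y' * h2 + hxy'
    refine ⟨Units.mkOfMulEqOne _ _ hu, ?_⟩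
    ext
    · exact h1
    · exact h2

/-- The action of units on unimodular pairs is free. -/
theorem smul_eq_self_iff (u : (ZMod N)ˣ) (v : Unimod N) : u • v = v ↔ u = 1 := by
  constructor
  · intro h
    obtain ⟨x, y, hxy⟩ := v.2
    have h1 : (u : ZMod N) * v.1.1 = v.1.1 := congrArg (fun w : Unimod N => w.1.1) h
    have h2 : (u : ZMod N) * v.1.2 = v.1.2 := congrArg (fun w : Unimod N => w.1.2) h
    ext
    rw [Units.val_one]
    linear_combination x * h1 + y * h2 - ((u : ZMod N) - 1) * hxy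
  · rintro rfl
    exact one_smul _ v

end Unimod

/-- The projective line over `ℤ/N`. -/
abbrev P1 (N : ℕ) : Type := MulAction.orbitRel.Quotient (ZMod N)ˣ (Unimod N)

/-- The class of a unimodular pair. -/
def P1.mk {N : ℕ} (v : Unimod N) : P1 N := Quotient.mk'' v

theorem P1.mk_eq_mk_iff {N : ℕ} (v w : Unimod N) :
    P1.mk v = P1.mk w ↔ v.1.1 * w.1.2 = v.1.2 * w.1.1 := by
  rw [← Unimod.exists_smul_eq_iff]
  unfold P1.mk
  rw [Quotient.eq'', MulAction.orbitRel_apply, MulAction.mem_orbit_iff]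
  constructor
  · rintro ⟨u, hu⟩
    exact ⟨u⁻¹, by rw [← hu, inv_smul_smul]⟩
  · rintro ⟨u, hu⟩
    exact ⟨u⁻¹, by rw [← hu, inv_smul_smul]⟩

theorem P1.mk_surjective {N : ℕ} : Function.Surjective (P1.mk (N := N)) :=
  Quotient.mk''_surjective

/-- First column of `g ∈ SL(2,ℤ)` modulo `N`. -/
def colU (N : ℕ) (g : SL(2, ℤ)) : Unimod N :=
  ⟨(((g 0 0 : ℤ) : ZMod N), ((g 1 0 : ℤ) : ZMod N)),
    (Matrix.SpecialLinearGroup.isCoprime_col g 0).map (Int.castRingHom (ZMod N))⟩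

@[simp] theorem colU_fst (N : ℕ) (g : SL(2, ℤ)) : (colU N g).1.1 = ((g 0 0 : ℤ) : ZMod N) := rfl
@[simp] theorem colU_snd (N : ℕ) (g : SL(2, ℤ)) : (colU N g).1.2 = ((g 1 0 : ℤ) : ZMod N) := rfl

theorem colU_surjective (N : ℕ) [NeZero N] : Function.Surjective (colU N) := by
  rintro ⟨⟨a, c⟩, h⟩
  obtain ⟨g, h0, h1⟩ := exists_SL2_col_mod (N := N) h
  exact ⟨g, Unimod.ext h0 h1⟩

theorem inv_mul_mem_Gamma0_iff (N : ℕ) (g h : SL(2, ℤ)) :
    g⁻¹ * h ∈ Gamma0 N ↔ P1.mk (colU N g) = P1.mk (colU N h) := by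
  rw [P1.mk_eq_mk_iff, Gamma0_mem]
  simp only [colU_fst, colU_snd]
  have : ((g⁻¹ * h : SL(2, ℤ)) 1 0 : ℤ) = g 0 0 * h 1 0 - g 1 0 * h 0 0 := by
    rw [Matrix.SpecialLinearGroup.coe_mul, Matrix.SpecialLinearGroup.coe_inv,
      Matrix.adjugate_fin_two, Matrix.mul_apply, Fin.sum_univ_two]
    simp
    ring
  rw [this]
  push_cast
  rw [sub_eq_zero]

/-- The bijection `SL(2,ℤ) ⧸ Γ₀(N) ≃ P¹(ℤ/N)`, `gΓ₀(N) ↦ [first column of g]`. -/
noncomputable def cosetEquivP1 (N : ℕ) [NeZero N] : (SL(2, ℤ) ⧸ Gamma0 N) ≃ P1 N :=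
  Equiv.ofBijective
    (Quotient.lift (fun g : SL(2, ℤ) => P1.mk (colU N g)) (by
      intro g h hgh
      exact (inv_mul_mem_Gamma0_iff N g h).mp (QuotientGroup.leftRel_apply.mp hgh)))
    (by
      constructor
      · rintro ⟨g⟩ ⟨h⟩ hgh
        exact Quotient.sound (QuotientGroup.leftRel_apply.mpr
          ((inv_mul_mem_Gamma0_iff N g h).mpr hgh))
      · intro p
        obtain ⟨v, rfl⟩ := P1.mk_surjective p
        obtain ⟨g, rfl⟩ := colU_surjective N v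
        exact ⟨QuotientGroup.mk g, rfl⟩)

@[simp] theorem cosetEquivP1_mk (N : ℕ) [NeZero N] (g : SL(2, ℤ)) :
    cosetEquivP1 N (QuotientGroup.mk g) = P1.mk (colU N g) := rfl

end Fermat.Agent.S20
end MergeWrap_S20_Cosets_P1

section MergeWrap_S20_Cosets_Action -- from S20/Cosets/Action.lean

set_option autoImplicit false

namespace Fermat.Agent.S20

open scoped MatrixGroups
open CongruenceSubgroup Matrix

variable {N : ℕ}

theorem det_cast_eq_one (N : ℕ) (g : SL(2, ℤ)) :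
    ((g 0 0 : ℤ) : ZMod N) * ((g 1 1 : ℤ) : ZMod N) -
      ((g 0 1 : ℤ) : ZMod N) * ((g 1 0 : ℤ) : ZMod N) = 1 := by
  have h := g.det_coe
  rw [Matrix.det_fin_two] at h
  have := congrArg (Int.cast : ℤ → ZMod N) h
  push_cast at this
  exact this

instance instSMulSLUnimod : SMul SL(2, ℤ) (Unimod N) where
  smul g v := ⟨(((g 0 0 : ℤ) : ZMod N) * v.1.1 + ((g 0 1 : ℤ) : ZMod N) * v.1.2,
      ((g 1 0 : ℤ) : ZMod N) * v.1.1 + ((g 1 1 : ℤ) : ZMod N) * v.1.2), by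
    obtain ⟨x, y, hxy⟩ := v.2
    refine ⟨x * ((g 1 1 : ℤ) : ZMod N) - y * ((g 1 0 : ℤ) : ZMod N),
      -x * ((g 0 1 : ℤ) : ZMod N) + y * ((g 0 0 : ℤ) : ZMod N), ?_⟩
    linear_combination (x * v.1.1 + y * v.1.2) * det_cast_eq_one N g + hxy⟩

@[simp] theorem SL_smul_fst (g : SL(2, ℤ)) (v : Unimod N) :
    (g • v).1.1 = ((g 0 0 : ℤ) : ZMod N) * v.1.1 + ((g 0 1 : ℤ) : ZMod N) * v.1.2 := rfl

@[simp] theorem SL_smul_snd (g : SL(2, ℤ)) (v : Unimod N) :
    (g • v).1.2 = ((g 1 0 : ℤ) : ZMod N) * v.1.1 + ((g 1 1 : ℤ) : ZMod N) * v.1.2 := rfl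

theorem SL_mul_apply_cast (g h : SL(2, ℤ)) (i j : Fin 2) :
    (((g * h : SL(2, ℤ)) i j : ℤ) : ZMod N) =
      ((g i 0 : ℤ) : ZMod N) * ((h 0 j : ℤ) : ZMod N) +
        ((g i 1 : ℤ) : ZMod N) * ((h 1 j : ℤ) : ZMod N) := by
  rw [Matrix.SpecialLinearGroup.coe_mul, Matrix.mul_apply, Fin.sum_univ_two]
  push_cast
  rfl

instance instMulActionSLUnimod : MulAction SL(2, ℤ) (Unimod N) where
  one_smul v := by
    ext <;> simp
  mul_smul g h v := by
    ext
    · simp only [SL_smul_fst, SL_smul_snd, SL_mul_apply_cast]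
      ring
    · simp only [SL_smul_fst, SL_smul_snd, SL_mul_apply_cast]
      ring

instance instSMulCommClassSLUnits : SMulCommClass SL(2, ℤ) (ZMod N)ˣ (Unimod N) where
  smul_comm g u v := by
    ext
    · simp only [SL_smul_fst, Unimod.smul_fst, Unimod.smul_snd]
      ring
    · simp only [SL_smul_snd, Unimod.smul_fst, Unimod.smul_snd]
      ring

theorem colU_mul (g h : SL(2, ℤ)) : colU N (g * h) = g • colU N h := by
  ext
  · simp only [colU_fst, SL_smul_fst, colU_snd, SL_mul_apply_cast]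
  · simp only [colU_snd, SL_smul_snd, colU_fst, SL_mul_apply_cast]

theorem P1.mk_smul_eq_of_eq (g : SL(2, ℤ)) {v w : Unimod N} (h : P1.mk v = P1.mk w) :
    P1.mk (g • v) = P1.mk (g • w) := by
  rw [P1.mk_eq_mk_iff] at h ⊢
  simp only [SL_smul_fst, SL_smul_snd]
  linear_combination (((g 0 0 : ℤ) : ZMod N) * ((g 1 1 : ℤ) : ZMod N) -
    ((g 0 1 : ℤ) : ZMod N) * ((g 1 0 : ℤ) : ZMod N)) * h

/-- The action of `SL(2,ℤ)` on `P¹(ℤ/N)`. -/
instance instSMulSLP1 : SMul SL(2, ℤ) (P1 N) where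
  smul g := Quotient.lift (fun v : Unimod N => P1.mk (g • v))
    (fun _ _ h => P1.mk_smul_eq_of_eq g (Quotient.sound h))

theorem P1.smul_mk (g : SL(2, ℤ)) (v : Unimod N) : g • P1.mk v = P1.mk (g • v) := rfl

instance instMulActionSLP1 : MulAction SL(2, ℤ) (P1 N) where
  one_smul p := by
    obtain ⟨v, rfl⟩ := P1.mk_surjective p
    rw [P1.smul_mk, one_smul]
  mul_smul g h p := by
    obtain ⟨v, rfl⟩ := P1.mk_surjective p
    rw [P1.smul_mk, P1.smul_mk, P1.smul_mk, mul_smul]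

theorem cosetEquivP1_smul [NeZero N] (g : SL(2, ℤ)) (x : SL(2, ℤ) ⧸ Gamma0 N) :
    cosetEquivP1 N (g • x) = g • cosetEquivP1 N x := by
  induction x using QuotientGroup.induction_on with
  | H h =>
    rw [MulAction.Quotient.smul_mk, cosetEquivP1_mk, cosetEquivP1_mk, P1.smul_mk, smul_eq_mul,
      colU_mul]

end Fermat.Agent.S20
end MergeWrap_S20_Cosets_Action
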